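/-
Project BAD (bad reduction toolkit, chief architect helper98).  THE LANGUAGE.

Everything happens inside a field `F` (function field of a curve over the fraction field `K` of a
discrete valuation ring):
* vertical (and horizontal) valuations are `ValuationSubring F`;
* closed points of the normal model are `LocalSubring F` (the local ring `O = B_𝔪`);
* no residue field types and no quotient rings appear in the interfaces: everything is expressed by
  congruences `Cong W x y` (`x - y` lies in the maximal ideal of `W`).
-/
import Mathlib

set_option autoImplicit false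

namespace Fermat.Agent.BAD

variable {F : Type*} [Field F]

/-- `x ≡ y` modulo the maximal ideal of the valuation ring `W`. -/
def Cong (W : ValuationSubring F) (x y : F) : Prop := x - y ∈ W.nonunits

/-- `x` is a unit of the valuation ring `W`. -/
def IsU (W : ValuationSubring F) (x : F) : Prop := W.valuation x = 1

/-- `x` is a unit of the subring `O` of the field `F`. -/
def UnitIn (O : Subring F) (x : F) : Prop := x ≠ 0 ∧ x ∈ O ∧ x⁻¹ ∈ O

/-- `x` lies in the maximal ideal of the local subring `O`. -/
def InMax (O : LocalSubring F) (x : F) : Prop := x ∈ O.toSubring ∧ ¬ UnitIn O.toSubring x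

/-- The component `W` passes through the point `O`. -/
def Through (W : ValuationSubring F) (O : LocalSubring F) : Prop := O.toSubring ≤ W.toSubring

/-- `W` passes through `O` and the image of `O` in the residue field of `W` is a valuation ring
("the component `W` is normal at the point `O`"). -/
def Branch (W : ValuationSubring F) (O : LocalSubring F) : Prop :=
  Through W O ∧ ∀ s : F, IsU W s →
    (∃ η ∈ O.toSubring, Cong W s η) ∨ (∃ η ∈ O.toSubring, Cong W s⁻¹ η)

/-- The residue of `h` on the component `W` is regular at the point `O`, with the same value as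
`c` there. -/
def Val (W : ValuationSubring F) (O : LocalSubring F) (h c : F) : Prop :=
  ∃ η ∈ O.toSubring, InMax O (η - c) ∧ Cong W h η

/-- The horizontal divisor of `u` is divisible by `n`: at every valuation ring of `F` containing
the constants, `u` is a unit times an `n`-th power. -/
def HDiv (K : Type*) [Field K] [Algebra K F] (n : ℕ) (u : F) : Prop :=
  ∀ V : ValuationSubring F, (∀ a : K, algebraMap K F a ∈ V) → ∃ t : F, t ≠ 0 ∧ IsU V (u * t ^ n)

/-- `y` is a constant times an `n`-th power. -/
def KPow (K : Type*) [Field K] [Algebra K F] (n : ℕ) (y : F) : Prop :=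
  ∃ (c : K) (g : F), y = algebraMap K F c * g ^ n

/-- `u` is, near the point `O`, a unit times the `n`-th power of an element `h` whose residues on
all the components (in `𝒲`) through `O` are regular at `O` with one and the same value
("trivial gluing data at `O`"). -/
def LocTriv (𝒲 : Set (ValuationSubring F)) (n : ℕ) (u : F) (O : LocalSubring F) : Prop :=
  ∃ h : F, h ≠ 0 ∧ UnitIn O.toSubring (u / h ^ n) ∧
    ∃ c : F, UnitIn O.toSubring c ∧ ∀ W ∈ 𝒲, Through W O → Val W O h c

/-- A normalised discrete valuation attached to the valuation ring `W`. -/
structure Ord (W : ValuationSubring F) where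
  ord : F → ℤ
  ord_mul : ∀ x y : F, x ≠ 0 → y ≠ 0 → ord (x * y) = ord x + ord y
  nonneg_iff : ∀ x : F, x ≠ 0 → (0 ≤ ord x ↔ x ∈ W)
  exists_one : ∃ x : F, x ≠ 0 ∧ ord x = 1

/-- The norm of the field extension `φ : F₁ → F₂`. -/
noncomputable def normAlong {F₁ F₂ : Type*} [Field F₁] [Field F₂] (φ : F₁ →+* F₂) : F₂ →* F₁ :=
  letI := φ.toAlgebra
  Algebra.norm F₁

end Fermat.Agent.BAD
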