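/-
BAD / S36 node S2 = (L2) (owner helper71): classes of the Kummer model `W N n` which are invariant
under a subgroup `H` of `G_ℚ` have a representative which is fixed by `H` coefficientwise.
No Hilbert 90: averaging over the finite orbit of the normalised `n`-th roots.
-/
import Fermat.Agent.GAL.E.Defs
import Fermat.Agent.GAL.E.FiniteLevel

set_option autoImplicit false

noncomputable section

namespace Fermat.Agent.BAD.Descent

open ModularCurve AlgebraicCurve Fermat.Agent.S24 Fermat.Agent.GAL.E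

/-- One-units of `ℚ̄((q))`: series `1 + O(q)`. -/
def IsOne (z : LaurentSeries Kbar) : Prop := z.coeff 0 = 1 ∧ ∀ k : ℤ, k < 0 → z.coeff k = 0

theorem isOne_iff_orderTop (z : LaurentSeries Kbar) : IsOne z ↔ 0 < (z - 1).orderTop := by
  constructor
  · rintro ⟨h0, hneg⟩
    by_contra hcon
    rw [not_lt] at hcon
    have hne : z - 1 ≠ 0 := by
      intro h
      rw [h, HahnSeries.orderTop_zero] at hcon
      exact absurd hcon (by simp)
    have h1 := HahnSeries.order_eq_orderTop_of_ne_zero hne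
    rw [← h1] at hcon
    have hle : (z - 1).order ≤ 0 := by exact_mod_cast hcon
    have h2 : (z - 1).coeff (z - 1).order ≠ 0 := HahnSeries.coeff_orderTop_ne h1.symm
    apply h2
    rw [HahnSeries.coeff_sub, HahnSeries.coeff_one]
    rcases hle.lt_or_eq with h | h
    · rw [hneg _ h, if_neg h.ne, sub_zero]
    · rw [h, h0, if_pos rfl, sub_self]
  · intro h
    have key : ∀ k : ℤ, k ≤ 0 → (z - 1).coeff k = 0 := fun k hk =>
      HahnSeries.coeff_eq_zero_of_lt_orderTop (lt_of_le_of_lt (by exact_mod_cast hk) h)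
    constructor
    · have := key 0 le_rfl
      rw [HahnSeries.coeff_sub, HahnSeries.coeff_one, if_pos rfl, sub_eq_zero] at this
      exact this
    · intro k hk
      have := key k hk.le
      rw [HahnSeries.coeff_sub, HahnSeries.coeff_one, if_neg hk.ne, sub_zero] at this
      exact this

theorem isOne_iff (z : LaurentSeries Kbar) : IsOne z ↔ z.orderTop = 0 ∧ z.leadingCoeff = 1 := by
  rw [isOne_iff_orderTop, HahnSeries.orderTop_self_sub_one_pos_iff]

theorem isOne_one : IsOne 1 := by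
  rw [isOne_iff_orderTop]; simp

theorem IsOne.ne_zero {z : LaurentSeries Kbar} (hz : IsOne z) : z ≠ 0 := by
  rintro rfl
  have := hz.1
  simp at this

theorem IsOne.mul {y z : LaurentSeries Kbar} (hy : IsOne y) (hz : IsOne z) : IsOne (y * z) := by
  rw [isOne_iff] at *
  rw [HahnSeries.orderTop_mul, HahnSeries.leadingCoeff_mul, hy.1, hy.2, hz.1, hz.2]
  simp

theorem IsOne.pow {z : LaurentSeries Kbar} (hz : IsOne z) (m : ℕ) : IsOne (z ^ m) := by
  induction m with
  | zero => simpa using isOne_one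
  | succ m ih => rw [pow_succ]; exact ih.mul hz

theorem IsOne.coeffMap {z : LaurentSeries Kbar} (hz : IsOne z) (σ : Kbar →+* Kbar) :
    IsOne (coeffMap σ z) := by
  refine ⟨?_, fun k hk => ?_⟩
  · rw [coeffMap_coeff, hz.1, map_one]
  · rw [coeffMap_coeff, hz.2 k hk, map_zero]

/-- A sum of one-units over a finite set has constant coefficient the cardinality. -/
theorem coeff_zero_sum {ι : Type*} (s : Finset ι) (f : ι → LaurentSeries Kbar)
    (hf : ∀ i ∈ s, IsOne (f i)) : (∑ i ∈ s, f i).coeff 0 = (s.card : Kbar) ∧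
      ∀ k : ℤ, k < 0 → (∑ i ∈ s, f i).coeff k = 0 := by
  classical
  induction s using Finset.induction_on with
  | empty => simp
  | insert a s ha ih =>
    have h1 := ih fun i hi => hf i (Finset.mem_insert_of_mem hi)
    have h2 := hf a (Finset.mem_insert_self a s)
    rw [Finset.sum_insert ha, Finset.card_insert_of_notMem ha]
    refine ⟨?_, fun k hk => ?_⟩
    · rw [HahnSeries.coeff_add, h1.1, h2.1]; push_cast; ring
    · rw [HahnSeries.coeff_add, h1.2 k hk, h2.2 k hk, add_zero]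

/-- Uniqueness of normalised `n`-th roots. -/
theorem IsOne.eq_of_pow_eq {y z : LaurentSeries Kbar} (hy : IsOne y) (hz : IsOne z) {n : ℕ}
    (hn : 0 < n) (h : y ^ n = z ^ n) : y = z := by
  have hcomm : Commute y z := Commute.all y z
  have h1 := hcomm.mul_geom_sum₂ n
  rw [h, sub_self] at h1
  rcases mul_eq_zero.1 h1 with h2 | h2
  · exact sub_eq_zero.1 h2
  · exfalso
    have h3 := (coeff_zero_sum (Finset.range n) (fun i => y ^ i * z ^ (n - 1 - i))
      (fun i _ => (hy.pow i).mul (hz.pow _))).1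
    rw [h2, Finset.card_range] at h3
    have : (n : Kbar) ≠ 0 := Nat.cast_ne_zero.2 hn.ne'
    exact this (by simpa using h3.symm)

theorem orderTop_pow' (w : LaurentSeries Kbar) (n : ℕ) : (w ^ n).orderTop = n • w.orderTop := by
  induction n with
  | zero => simp
  | succ n ih => rw [pow_succ, HahnSeries.orderTop_mul, ih, succ_nsmul]

theorem leadingCoeff_pow' (w : LaurentSeries Kbar) (n : ℕ) :
    (w ^ n).leadingCoeff = w.leadingCoeff ^ n := by
  induction n with
  | zero => simp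
  | succ n ih => rw [pow_succ, HahnSeries.leadingCoeff_mul, ih, pow_succ]

/-- If `w ^ n` is a quotient of one-units then `w` has order zero and its leading coefficient is an
`n`-th root of unity. -/
theorem orderTop_eq_zero_of_pow_mul {w e e' : LaurentSeries Kbar} {n : ℕ} (hn : 0 < n)
    (he : IsOne e) (he' : IsOne e') (h : w ^ n * e = e') :
    w.orderTop = 0 ∧ w.leadingCoeff ^ n = 1 := by
  rw [isOne_iff] at he he'
  have h1 := congrArg HahnSeries.orderTop h
  have h2 := congrArg HahnSeries.leadingCoeff h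
  rw [HahnSeries.orderTop_mul, he.1, he'.1, add_zero, orderTop_pow'] at h1
  rw [HahnSeries.leadingCoeff_mul, he.2, he'.2, mul_one, leadingCoeff_pow'] at h2
  refine ⟨?_, h2⟩
  have hw : w ≠ 0 := by
    rintro rfl
    rw [HahnSeries.leadingCoeff_zero, zero_pow hn.ne'] at h2
    exact zero_ne_one h2
  rw [← HahnSeries.order_eq_orderTop_of_ne_zero hw] at h1 ⊢
  rw [← WithTop.coe_nsmul] at h1
  have h3 : n • w.order = 0 := by exact_mod_cast h1
  have h4 : w.order = 0 := by
    rcases smul_eq_zero.1 h3 with h | h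
    · omega
    · exact h
  rw [h4]; rfl

/-- Every nonzero series with leading coefficient one is `q ^ m` times a one-unit. -/
theorem exists_single_mul_isOne {y : LaurentSeries Kbar} (hy : y.leadingCoeff = 1) :
    ∃ (m : ℤ) (e : LaurentSeries Kbar), IsOne e ∧ y = HahnSeries.single m 1 * e := by
  have hy0 : y ≠ 0 := by
    rintro rfl
    rw [HahnSeries.leadingCoeff_zero] at hy
    exact zero_ne_one hy
  refine ⟨y.order, HahnSeries.single (-y.order) 1 * y, ?_, ?_⟩
  · rw [isOne_iff]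
    constructor
    · rw [HahnSeries.orderTop_mul, HahnSeries.orderTop_single one_ne_zero,
        ← HahnSeries.order_eq_orderTop_of_ne_zero hy0, ← WithTop.coe_add]
      simp
    · rw [HahnSeries.leadingCoeff_mul, HahnSeries.leadingCoeff_of_single, hy, one_mul]
  · rw [← mul_assoc, HahnSeries.single_mul_single]
    simp

/-- the `q`-expansion of a constant -/
theorem coe_algebraMap (N : ℕ) (c : Kbar) :
    ((algebraMap Kbar (FN N) c : FN N) : LaurentSeries Kbar) = HahnSeries.single 0 c := by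
  rw [← algebraMap_laurentSeries_eq_single]
  rfl

/-- The leading coefficient of the `q`-expansion. -/
def lc {N : ℕ} (y : FN N) : Kbar := (y : LaurentSeries Kbar).leadingCoeff

theorem lc_mul {N : ℕ} (y z : FN N) : lc (y * z) = lc y * lc z :=
  HahnSeries.leadingCoeff_mul _ _

theorem lc_algebraMap {N : ℕ} (c : Kbar) : lc (algebraMap Kbar (FN N) c) = c := by
  rw [lc, coe_algebraMap, HahnSeries.leadingCoeff_of_single]

theorem lc_ne_zero {N : ℕ} {y : FN N} (hy : y ≠ 0) : lc y ≠ 0 :=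
  HahnSeries.leadingCoeff_ne_zero.2 fun h => hy (Subtype.ext h)

theorem lc_pow {N : ℕ} (y : FN N) (m : ℕ) : lc (y ^ m) = lc y ^ m := by
  induction m with
  | zero => simpa using lc_algebraMap (N := N) 1
  | succ m ih => rw [pow_succ, pow_succ, lc_mul, ih]

/-- Step A: every class has a representative with leading coefficient one. -/
theorem exists_rep_lc_one (N n : ℕ) (hn : 0 < n) (x : W N n) :
    ∃ u : kum N n, cls u = x ∧ lc ((u : (FN N)ˣ) : FN N) = 1 := by
  obtain ⟨u₀, rfl⟩ := cls_surjective x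
  have hc : lc ((u₀ : (FN N)ˣ) : FN N) ≠ 0 := lc_ne_zero (u₀ : (FN N)ˣ).ne_zero
  obtain ⟨d, hd⟩ := IsAlgClosed.exists_pow_nat_eq (lc ((u₀ : (FN N)ˣ) : FN N))⁻¹ hn
  have hd0 : d ≠ 0 := by
    rintro rfl
    rw [zero_pow hn.ne'] at hd
    exact inv_ne_zero hc hd.symm
  have hD : algebraMap Kbar (FN N) d ≠ 0 := by
    rw [Ne, map_eq_zero]; exact hd0
  let D : (FN N)ˣ := Units.mk0 _ hD
  have hDk : D ^ n ∈ kum N n := pows_le_kum N n ⟨D, rfl⟩
  refine ⟨u₀ * ⟨D ^ n, hDk⟩, ?_, ?_⟩
  · rw [cls_mul]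
    have : cls (⟨D ^ n, hDk⟩ : kum N n) = 0 := (cls_eq_zero_iff _).2 ⟨D, rfl⟩
    rw [this]
    exact add_zero (cls u₀)
  · show lc (((u₀ : (FN N)ˣ) : FN N) * ((D ^ n : (FN N)ˣ) : FN N)) = 1
    rw [Units.val_pow_eq_pow_val, lc_mul, lc_pow]
    show _ * (lc (algebraMap Kbar (FN N) d)) ^ n = 1
    rw [lc_algebraMap, hd, mul_inv_cancel₀ hc]

/-- Step B: normalisation of the `n`-th root of `σ a / a`. -/
theorem exists_isOne_root {N n : ℕ} (hn : 0 < n) {a : FN N} (ha : lc a = 1) (σ : GQ) {w : FN N}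
    (hw : w ^ n * a = galF N σ a) :
    ∃ h : FN N, IsOne (h : LaurentSeries Kbar) ∧ h ^ n * a = galF N σ a := by
  obtain ⟨m, e, he, hae⟩ := exists_single_mul_isOne ha
  have h1 : ((w : LaurentSeries Kbar)) ^ n * (a : LaurentSeries Kbar) =
      coeffMap (σ : Kbar →+* Kbar) (a : LaurentSeries Kbar) := by
    rw [← coe_galF, ← hw]; rfl
  have hσ1 : (σ : Kbar →+* Kbar) 1 = 1 := map_one _
  rw [hae, map_mul, coeffMap_single, hσ1, mul_left_comm] at h1
  have hs : (HahnSeries.single m (1 : Kbar) : LaurentSeries Kbar) ≠ 0 :=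
    HahnSeries.single_ne_zero one_ne_zero
  have h2 := mul_left_cancel₀ hs h1
  obtain ⟨h3, h4⟩ := orderTop_eq_zero_of_pow_mul hn he (he.coeffMap _) h2
  have hc : (w : LaurentSeries Kbar).leadingCoeff ≠ 0 := by
    intro h0
    rw [h0, zero_pow hn.ne'] at h4
    exact zero_ne_one h4
  refine ⟨w * algebraMap Kbar (FN N) ((w : LaurentSeries Kbar).leadingCoeff)⁻¹, ?_, ?_⟩
  · have hcoe : ((w * algebraMap Kbar (FN N) ((w : LaurentSeries Kbar).leadingCoeff)⁻¹ : FN N) :
        LaurentSeries Kbar) = (w : LaurentSeries Kbar) *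
          HahnSeries.single 0 ((w : LaurentSeries Kbar).leadingCoeff)⁻¹ := by
      rw [← coe_algebraMap N]; rfl
    rw [isOne_iff, hcoe, HahnSeries.orderTop_mul, HahnSeries.leadingCoeff_mul, h3,
      HahnSeries.orderTop_single (inv_ne_zero hc), HahnSeries.leadingCoeff_of_single,
      mul_inv_cancel₀ hc]
    simp
  · rw [mul_pow, ← map_pow, inv_pow, h4, inv_one, map_one, mul_one, hw]

/-- Step C: orbits in `FN N` are finite. -/
theorem finite_orbit (N : ℕ) (H : Subgroup GQ) (a : FN N) :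
    {v : FN N | ∃ σ ∈ H, galF N σ a = v}.Finite := by
  obtain ⟨L, hL, hfix⟩ := exists_finite_level N a
  let r : GQ → (L →ₐ[ℚ] Kbar) := fun σ => (σ : Kbar →ₐ[ℚ] Kbar).comp L.val
  have hr : ∀ σ τ : GQ, r σ = r τ → galF N σ a = galF N τ a := by
    intro σ τ h
    have h1 : galF N (τ⁻¹ * σ) a = a := by
      apply hfix
      intro x hx
      have h2 : σ x = τ x := DFunLike.congr_fun h (⟨x, hx⟩ : L)
      show τ⁻¹ (σ x) = x
      rw [h2]
      exact τ.symm_apply_apply x
    have h3 := congrArg (galF N τ) h1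
    rw [← galF_mul, mul_inv_cancel_left] at h3
    exact h3
  have hsub : {v : FN N | ∃ σ ∈ H, galF N σ a = v} ⊆
      Set.range (Function.extend r (fun σ => galF N σ a) (fun _ => a)) := by
    rintro v ⟨σ, -, rfl⟩
    refine ⟨r σ, ?_⟩
    exact Function.FactorsThrough.extend_apply (fun σ τ h => hr σ τ h) _ σ
  exact (Set.finite_range _).subset hsub

theorem coe_sum {N : ℕ} {ι : Type*} (s : Finset ι) (f : ι → FN N) :
    ((∑ i ∈ s, f i : FN N) : LaurentSeries Kbar) = ∑ i ∈ s, (f i : LaurentSeries Kbar) :=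
  map_sum (modularFunctionFieldBar N).val f s

/-- Step D: averaging. -/
theorem exists_fixed_mul_pow {N n : ℕ} (hn : 0 < n) (H : Subgroup GQ) {a : FN N} (ha0 : a ≠ 0)
    (hroot : ∀ σ ∈ H, ∃ h : FN N, IsOne (h : LaurentSeries Kbar) ∧ h ^ n * a = galF N σ a) :
    ∃ g : FN N, IsOne (g : LaurentSeries Kbar) ∧ ∀ σ ∈ H, galF N σ (a * g ^ n) = a * g ^ n := by
  classical
  set O : Set (FN N) := {v : FN N | ∃ σ ∈ H, galF N σ a = v} with hO
  have hfin : O.Finite := finite_orbit N H a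
  have hex : ∀ v : FN N, ∃ h : FN N, v ∈ O → (IsOne (h : LaurentSeries Kbar) ∧ h ^ n * a = v) := by
    intro v
    by_cases hv : v ∈ O
    · obtain ⟨σ, hσ, rfl⟩ := hv
      obtain ⟨h, h1, h2⟩ := hroot σ hσ
      exact ⟨h, fun _ => ⟨h1, h2⟩⟩
    · exact ⟨1, fun h => absurd h hv⟩
  choose hh hhh using hex
  set S : Finset (FN N) := hfin.toFinset with hS
  have hmemS : ∀ v, v ∈ S ↔ v ∈ O := fun v => hfin.mem_toFinset
  have haO : a ∈ O := ⟨1, H.one_mem, galF_one N a⟩
  have hσO : ∀ σ ∈ H, ∀ v ∈ O, galF N σ v ∈ O := by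
    rintro σ hσ _ ⟨τ, hτ, rfl⟩
    exact ⟨σ * τ, H.mul_mem hσ hτ, galF_mul N σ τ a⟩
  -- the cocycle relation
  have hcoc : ∀ σ ∈ H, ∀ v ∈ O, galF N σ (hh v) * hh (galF N σ a) = hh (galF N σ v) := by
    intro σ hσ v hv
    have h1 := hhh v hv
    have h2 := hhh _ (hσO σ hσ a haO)
    have h3 := hhh _ (hσO σ hσ v hv)
    apply Subtype.ext
    have hone : IsOne ((galF N σ (hh v) * hh (galF N σ a) : FN N) : LaurentSeries Kbar) := by
      have : IsOne ((galF N σ (hh v) : FN N) : LaurentSeries Kbar) := by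
        rw [coe_galF]; exact h1.1.coeffMap _
      exact this.mul h2.1
    refine hone.eq_of_pow_eq h3.1 hn ?_
    have hpow : (galF N σ (hh v) * hh (galF N σ a)) ^ n = hh (galF N σ v) ^ n := by
      apply mul_right_cancel₀ ha0
      rw [h3.2, mul_pow, mul_assoc, h2.2, ← map_pow, ← map_mul, h1.2]
    exact congrArg (fun y : FN N => (y : LaurentSeries Kbar)) hpow
  set g₀ : FN N := ∑ v ∈ S, hh v with hg₀
  have hsum : ∀ σ ∈ H, galF N σ g₀ * hh (galF N σ a) = g₀ := by
    intro σ hσ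
    rw [hg₀, map_sum, Finset.sum_mul]
    have hinv : σ⁻¹ ∈ H := H.inv_mem hσ
    refine Finset.sum_nbij' (fun v => galF N σ v) (fun v => galF N σ⁻¹ v) ?_ ?_ ?_ ?_ ?_
    · intro v hv
      exact (hmemS _).2 (hσO σ hσ v ((hmemS v).1 hv))
    · intro v hv
      exact (hmemS _).2 (hσO _ hinv v ((hmemS v).1 hv))
    · intro v _
      rw [← galF_mul, inv_mul_cancel, galF_one]
    · intro v _
      rw [← galF_mul, mul_inv_cancel, galF_one]
    · intro v hv
      exact hcoc σ hσ v ((hmemS v).1 hv)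
  have hcard : (S.card : Kbar) ≠ 0 := by
    rw [Nat.cast_ne_zero]
    exact Finset.card_ne_zero_of_mem ((hmemS a).2 haO)
  have hco := coeff_zero_sum S (fun v => ((hh v : FN N) : LaurentSeries Kbar))
    (fun v hv => (hhh v ((hmemS v).1 hv)).1)
  rw [← coe_sum] at hco
  set κ : FN N := algebraMap Kbar (FN N) ((S.card : Kbar))⁻¹ with hκ
  have hκfix : ∀ σ : GQ, galF N σ κ = κ := by
    intro σ
    rw [hκ, galF_algebraMap, map_inv₀, map_natCast]
  have hcoe : ((g₀ * κ : FN N) : LaurentSeries Kbar) =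
      (g₀ : LaurentSeries Kbar) * HahnSeries.single 0 ((S.card : Kbar))⁻¹ := by
    rw [← coe_algebraMap N]; rfl
  refine ⟨g₀ * κ, ?_, ?_⟩
  · rw [hcoe]
    refine ⟨?_, fun k hk => ?_⟩
    · rw [HahnSeries.coeff_mul_single_zero, hco.1, mul_inv_cancel₀ hcard]
    · rw [HahnSeries.coeff_mul_single_zero, hco.2 k hk, zero_mul]
  · intro σ hσ
    have h2 := hhh _ (hσO σ hσ a haO)
    have h3 := hsum σ hσ
    rw [map_mul, map_pow, map_mul, hκfix]
    calc galF N σ a * (galF N σ g₀ * κ) ^ n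
        = (hh (galF N σ a) ^ n * a) * (galF N σ g₀ * κ) ^ n := by rw [h2.2]
      _ = a * ((galF N σ g₀ * hh (galF N σ a)) * κ) ^ n := by ring
      _ = a * (g₀ * κ) ^ n := by rw [h3]

/-- **Descent of invariant classes** (S2 / L2).  A class of the Kummer model which is invariant
under a subgroup `H` of `G_ℚ` has a representative which is fixed by `H` (coefficientwise on
`q`-expansions) and has leading coefficient one. -/
theorem exists_fixed_rep (N n : ℕ) (hn : 0 < n) (H : Subgroup GQ) (x : W N n)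
    (hx : ∀ σ ∈ H, rho N n σ x = x) :
    ∃ u : kum N n, cls u = x ∧
      (∀ σ ∈ H, galF N σ ((u : (FN N)ˣ) : FN N) = ((u : (FN N)ˣ) : FN N)) ∧
      lc ((u : (FN N)ˣ) : FN N) = 1 := by
  obtain ⟨u₁, rfl, hlc⟩ := exists_rep_lc_one N n hn x
  have ha0 : ((u₁ : (FN N)ˣ) : FN N) ≠ 0 := (u₁ : (FN N)ˣ).ne_zero
  have hroot : ∀ σ ∈ H, ∃ h : FN N, IsOne (h : LaurentSeries Kbar) ∧
      h ^ n * ((u₁ : (FN N)ˣ) : FN N) = galF N σ ((u₁ : (FN N)ˣ) : FN N) := by
    intro σ hσ
    have h1 := hx σ hσ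
    rw [rho_cls] at h1
    set v : kum N n := ⟨galU N σ (u₁ : (FN N)ˣ), galU_mem_kum σ (u₁ : (FN N)ˣ) u₁.2⟩ with hv
    have h2 : cls (v * u₁⁻¹) = 0 := by
      rw [cls_mul, cls_inv, h1]
      exact add_neg_cancel (cls u₁)
    obtain ⟨w, hw⟩ := (cls_eq_zero_iff _).1 h2
    refine exists_isOne_root hn hlc σ (w := (w : FN N)) ?_
    have h3 : w ^ n * (u₁ : (FN N)ˣ) = galU N σ (u₁ : (FN N)ˣ) := by
      have : w ^ n = galU N σ (u₁ : (FN N)ˣ) * (u₁ : (FN N)ˣ)⁻¹ := hw
      rw [this, inv_mul_cancel_right]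
    have h4 := congrArg (fun y : (FN N)ˣ => (y : FN N)) h3
    simpa only [Units.val_mul, Units.val_pow_eq_pow_val, coe_galU] using h4
  obtain ⟨g, hg, hfix⟩ := exists_fixed_mul_pow hn H ha0 hroot
  have hg0 : g ≠ 0 := fun h => hg.ne_zero (by rw [h]; rfl)
  let G : (FN N)ˣ := Units.mk0 g hg0
  have hGk : G ^ n ∈ kum N n := pows_le_kum N n ⟨G, rfl⟩
  refine ⟨u₁ * ⟨G ^ n, hGk⟩, ?_, ?_, ?_⟩
  · rw [cls_mul]
    have : cls (⟨G ^ n, hGk⟩ : kum N n) = 0 := (cls_eq_zero_iff _).2 ⟨G, rfl⟩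
    rw [this]
    exact add_zero (cls u₁)
  · intro σ hσ
    show galF N σ (((u₁ : (FN N)ˣ) : FN N) * ((G ^ n : (FN N)ˣ) : FN N)) =
      ((u₁ : (FN N)ˣ) : FN N) * ((G ^ n : (FN N)ˣ) : FN N)
    rw [Units.val_pow_eq_pow_val]
    exact hfix σ hσ
  · show lc (((u₁ : (FN N)ˣ) : FN N) * ((G ^ n : (FN N)ˣ) : FN N)) = 1
    rw [Units.val_pow_eq_pow_val, lc_mul, lc_pow, hlc]
    show 1 * (lc g) ^ n = 1
    rw [lc, ((isOne_iff _).1 hg).2, one_pow, one_mul]

/-- An element of `FN N` is fixed by `H` iff all its `q`-expansion coefficients are. -/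
theorem galF_eq_self_iff {N : ℕ} (σ : GQ) (y : FN N) :
    galF N σ y = y ↔ ∀ k : ℤ, σ ((y : LaurentSeries Kbar).coeff k) = (y : LaurentSeries Kbar).coeff k := by
  constructor
  · intro h k
    have h1 := congrArg (fun z : FN N => (z : LaurentSeries Kbar).coeff k) h
    simp only [coe_galF, coeffMap_coeff] at h1
    exact h1
  · intro h
    apply Subtype.ext
    rw [coe_galF]
    ext k
    rw [coeffMap_coeff]
    exact h k

/-- The coefficients of an `H`-fixed element lie in the fixed field of `H`. -/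
theorem coeff_mem_fixedField {N : ℕ} (H : Subgroup GQ) {y : FN N}
    (hy : ∀ σ ∈ H, galF N σ y = y) (k : ℤ) :
    (y : LaurentSeries Kbar).coeff k ∈ IntermediateField.fixedField H :=
  fun σ => (galF_eq_self_iff σ.1 y).1 (hy σ.1 σ.2) k

/-- The leading coefficient is Galois equivariant. -/
theorem lc_galF {N : ℕ} (σ : GQ) (y : FN N) : lc (galF N σ y) = σ (lc y) := by
  by_cases hy : y = 0
  · subst hy
    simp [lc]
  have hc := lc_ne_zero hy
  have h1 : lc (y * algebraMap Kbar (FN N) (lc y)⁻¹) = 1 := by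
    rw [lc_mul, lc_algebraMap, mul_inv_cancel₀ hc]
  obtain ⟨m, e, he, hye⟩ := exists_single_mul_isOne h1
  have h2 : y = (y * algebraMap Kbar (FN N) (lc y)⁻¹) * algebraMap Kbar (FN N) (lc y) := by
    rw [mul_assoc, ← map_mul, inv_mul_cancel₀ hc, map_one, mul_one]
  have h3 : lc (galF N σ (y * algebraMap Kbar (FN N) (lc y)⁻¹)) = 1 := by
    have hσ1 : (σ : Kbar →+* Kbar) 1 = 1 := map_one _
    rw [lc, coe_galF, hye, map_mul, coeffMap_single, hσ1, HahnSeries.leadingCoeff_mul,
      HahnSeries.leadingCoeff_of_single, ((isOne_iff _).1 (he.coeffMap _)).2, one_mul]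
  conv_lhs => rw [h2]
  rw [map_mul, lc_mul, h3, galF_algebraMap, lc_algebraMap, one_mul]

/-- Uniqueness of `n`-th roots with leading coefficient one. -/
theorem eq_of_pow_eq_of_lc {N n : ℕ} (hn : 0 < n) {y z : FN N} (hy : lc y = 1) (hz : lc z = 1)
    (h : y ^ n = z ^ n) : y = z := by
  have hz0 : z ≠ 0 := by
    rintro rfl
    simp [lc] at hz
  set t : FN N := y * z⁻¹ with ht
  have htz : t * z = y := by rw [ht, mul_assoc, inv_mul_cancel₀ hz0, mul_one]
  have htn : t ^ n = 1 := by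
    rw [ht, mul_pow, h, inv_pow, mul_inv_cancel₀ (pow_ne_zero n hz0)]
  have hlt : lc t = 1 := by
    have := lc_mul t z
    rw [htz, hy, hz, mul_one] at this
    exact this.symm
  have h1 : ((t : LaurentSeries Kbar)) ^ n * 1 = 1 := by
    rw [mul_one]
    exact congrArg (fun y : FN N => (y : LaurentSeries Kbar)) htn
  have h2 := (orderTop_eq_zero_of_pow_mul hn isOne_one isOne_one h1).1
  have h3 : IsOne (t : LaurentSeries Kbar) := (isOne_iff _).2 ⟨h2, hlt⟩
  have h4 : (t : LaurentSeries Kbar) = 1 :=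
    h3.eq_of_pow_eq isOne_one hn (by rw [one_pow]; simpa using h1)
  have h5 : t = 1 := Subtype.ext h4
  rw [← htz, h5, one_mul]

/-- Descent of `n`-th roots: an `H`-fixed element of `FN N` which is an `n`-th power in `FN N` is a
constant (its leading coefficient, fixed by `H`) times the `n`-th power of an `H`-fixed element. -/
theorem exists_fixed_root {N n : ℕ} (hn : 0 < n) (H : Subgroup GQ) {z w : FN N} (hz0 : z ≠ 0)
    (hz : ∀ σ ∈ H, galF N σ z = z) (hw : w ^ n = z) :
    ∃ w₁ : FN N, (∀ σ ∈ H, σ (lc z) = lc z) ∧ (∀ σ ∈ H, galF N σ w₁ = w₁) ∧ lc w₁ = 1 ∧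
      z = algebraMap Kbar (FN N) (lc z) * w₁ ^ n := by
  have hw0 : w ≠ 0 := by
    rintro rfl
    rw [zero_pow hn.ne'] at hw
    exact hz0 hw.symm
  have hd := lc_ne_zero hw0
  have hdn : lc w ^ n = lc z := by rw [← lc_pow, hw]
  set w₁ : FN N := w * algebraMap Kbar (FN N) (lc w)⁻¹ with hw₁
  have hlc₁ : lc w₁ = 1 := by rw [hw₁, lc_mul, lc_algebraMap, mul_inv_cancel₀ hd]
  have hzw : z = algebraMap Kbar (FN N) (lc z) * w₁ ^ n := by
    rw [hw₁, mul_pow, hw, ← map_pow, inv_pow, hdn, mul_left_comm, ← map_mul,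
      mul_inv_cancel₀ (lc_ne_zero hz0), map_one, mul_one]
  have hcfix : ∀ σ ∈ H, σ (lc z) = lc z := by
    intro σ hσ
    rw [← lc_galF, hz σ hσ]
  refine ⟨w₁, hcfix, ?_, hlc₁, hzw⟩
  intro σ hσ
  refine eq_of_pow_eq_of_lc hn (by rw [lc_galF, hlc₁, map_one]) hlc₁ ?_
  have h1 := congrArg (galF N σ) hzw
  rw [hz σ hσ, map_mul, galF_algebraMap, hcfix σ hσ, map_pow] at h1
  have hc0 : algebraMap Kbar (FN N) (lc z) ≠ 0 := by
    rw [Ne, map_eq_zero]; exact lc_ne_zero hz0
  exact mul_left_cancel₀ hc0 (h1.symm.trans hzw)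

end Fermat.Agent.BAD.Descent

end
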